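import Fermat.Agent.S34.BR.IntA

set_option autoImplicit false

/-!
# S34 / BR / IntB : `IntAt` for the restricted places   (task BR-IntB)

SKETCH.  `T := toFN ι N t` is transcendental over `ℚ̄`: otherwise `T = algebraMap c` (`S24.transcendental_of_not_mem_range`), i.e. all coefficients of `t` of index `≠ 0` vanish,
 `t = algebraMap (t.coeff 0)` is algebraic over `K`.
 `isIntegral_of_ord_nonneg` : `toFN z` is integral over `ℚ̄[T]`.  Every element of `ℚ̄[T]` is integral over the subring `toFN (K[t])` (`Algebra.adjoin_induction`: `T` is in it; `c : ℚ̄` is integral over `ℚ`,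
 hence over any subring), so `toFN z` is integral over `toFN (K[t])` (`isIntegral_trans` / `RingHom.IsIntegralElem` version).
 A monic `P` with coefficients in `K[t]` and `(P.map toFN).eval (toFN z) = 0` satisfies `toFN (P.eval z) = 0`, so `P.eval z = 0`.
 Suggestion: work with `φ := (toFN ι N).comp (algebraMap (Algebra.adjoin K {t}) F_K)` and `φ.IsIntegralElem (toFN ι N z)`.
-/

noncomputable section

namespace Fermat.Agent.S34

open AlgebraicCurve ModularCurve
open Fermat.Agent.S24 (Kb FN iotaK)
open Fermat.Agent.S18 (toFN)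

/-- abstract descent of integrality along an algebraic extension of the constants. -/
theorem IntB.descend {K L F E : Type} [Field K] [Field L] [Field F] [Field E] [Algebra K F]
    [Algebra L E] (ι : K →+* L) (j : F →+* E)
    (hj : ∀ c, j (algebraMap K F c) = algebraMap L E (ι c))
    (hL : ∀ c : L, ι.IsIntegralElem c) (t z : F)
    (h : IsIntegral (Algebra.adjoin L {j t}) (j z)) : IsIntegral (Algebra.adjoin K {t}) z := by
  let _ : Algebra (Algebra.adjoin K {t}) E :=
    (j.comp (algebraMap (Algebra.adjoin K {t}) F)).toAlgebra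
  have halg : ∀ a : Algebra.adjoin K {t}, algebraMap (Algebra.adjoin K {t}) E a = j (a : F) :=
    fun _ => rfl
  have h1 : ∀ c : L, algebraMap L E c ∈ integralClosure (Algebra.adjoin K {t}) E := by
    intro c
    obtain ⟨p, hp, he⟩ := hL c
    refine ⟨p.map (algebraMap K (Algebra.adjoin K {t})), hp.map _, ?_⟩
    rw [Polynomial.eval₂_map]
    have hcomp : (algebraMap (Algebra.adjoin K {t}) E).comp (algebraMap K (Algebra.adjoin K {t})) =
        (algebraMap L E).comp ι := by
      ext a
      rw [RingHom.comp_apply, RingHom.comp_apply, halg, ← hj]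
      rfl
    rw [hcomp, ← Polynomial.hom_eval₂, he, map_zero]
  have h2 : j t ∈ integralClosure (Algebra.adjoin K {t}) E :=
    isIntegral_algebraMap (R := Algebra.adjoin K {t}) (A := E)
      (x := ⟨t, Algebra.self_mem_adjoin_singleton K t⟩)
  have h3 : ∀ x ∈ Algebra.adjoin L {j t}, x ∈ integralClosure (Algebra.adjoin K {t}) E := by
    intro x hx
    induction hx using Algebra.adjoin_induction with
    | mem x hx =>
      rw [Set.mem_singleton_iff] at hx
      rw [hx]; exact h2
    | algebraMap c => exact h1 c
    | add x y _ _ hx hy => exact add_mem hx hy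
    | mul x y _ _ hx hy => exact mul_mem hx hy
  have h4 : IsIntegral (integralClosure (Algebra.adjoin K {t}) E) (j z) := by
    let φ' : Algebra.adjoin L {j t} →+* integralClosure (Algebra.adjoin K {t}) E :=
      RingHom.codRestrict (algebraMap (Algebra.adjoin L {j t}) E)
        (integralClosure (Algebra.adjoin K {t}) E) (fun x => h3 x.1 x.2)
    exact IsIntegral.map_of_comp_eq φ' (RingHom.id E) (by ext x; rfl) h
  have h5 : IsIntegral (Algebra.adjoin K {t}) (j z) :=
    isIntegral_trans (A := integralClosure (Algebra.adjoin K {t}) E) _ h4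
  obtain ⟨p, hp, he⟩ := h5
  refine ⟨p, hp, ?_⟩
  apply j.injective
  rw [Polynomial.hom_eval₂, map_zero]
  exact he

theorem IntB.transcendental_toFN {K : Type} [Field K] (ι : K →+* Kb) (N : ℕ) [NeZero N]
    (t : modularFunctionFieldFullC K N) (ht : Transcendental K t) :
    Transcendental Kb (toFN ι N t) := by
  apply Fermat.Agent.S24.transcendental_of_not_mem_range
  rintro ⟨c, hc⟩
  apply ht
  have h1 : t = algebraMap K (modularFunctionFieldFullC K N) (t.1.coeff 0) := by
    apply Subtype.ext
    show t.1 = algebraMap K (LaurentSeries K) (t.1.coeff 0)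
    rw [algebraMap_laurentSeries_eq_single]
    ext n
    have h2 : (toFN ι N t).1.coeff n = (algebraMap Kb (LaurentSeries Kb) c).coeff n := by
      rw [← hc]; rfl
    rw [Fermat.Agent.S18.toFN_coe, coeffMap_coeff, algebraMap_laurentSeries_eq_single] at h2
    by_cases hn : n = 0
    · subst hn
      simp
    · rw [HahnSeries.coeff_single_of_ne hn] at h2 ⊢
      exact (map_eq_zero ι).1 h2
  rw [h1]
  exact isAlgebraic_algebraMap _

theorem IntB.isIntegralElem {K : Type} [Field K] (ι : K →+* Kb) (c : Kb) :
    ι.IsIntegralElem c := by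
  have _ : CharZero K := ι.charZero
  have hc : IsIntegral ℚ c := (AlgebraicClosure.isAlgebraic ℚ).isAlgebraic c |>.isIntegral
  obtain ⟨p, hp, he⟩ := hc
  refine ⟨p.map (algebraMap ℚ K), hp.map _, ?_⟩
  rw [Polynomial.eval₂_map, show ι.comp (algebraMap ℚ K) = algebraMap ℚ Kb from RingHom.ext_rat _ _]
  exact he

theorem intAt_wP {K : Type} [Field K] (ι : K →+* Kb) (N : ℕ) [NeZero N]
    (t : modularFunctionFieldFullC K N) (ht : Transcendental K t) : IntAt K (wP ι N) t := by
  intro z _ hz
  refine IntB.descend ι (toFN ι N) (toFN_algebraMap ι N) (IntB.isIntegralElem ι) t z ?_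
  exact isIntegral_of_ord_nonneg (Fermat.Agent.S24.isFF1_FN N) (IntB.transcendental_toFN ι N t ht)
    (fun v hv => hz v hv)

end Fermat.Agent.S34
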