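import Fermat.Agent.S34.BR.Defs

set_option autoImplicit false

/-!
# S34 / BR / Rat : a place fixed by `Gal(ℚ̄ / ιK)` restricts to a rational valuation of `F_K`   (task BR-Rat)

SKETCH.  Let `z ≠ 0`, `0 ≤ v.ord (toFN z)`.  `S24.exists_const_sub (S24.isFF1_FN N) v` : `c : ℚ̄` with `toFN z = c` or `0 < v.ord (toFN z - c)`.
 Claim: `σ c = c` for every `σ : GQ` fixing `ι K` pointwise.  `g := arithmeticGalois (modularFunctionFieldFull N) σ`, `g • y = galF N σ y` (rfl, see `GES/Preserve.lean`),
 `galF N σ (toFN z) = toFN z` (`galF_toFN`), `galF N σ (algebraMap c) = algebraMap (σ c)` (`GES.galF_algebraMap`), Prelude `SemilinearAut.ord_smul g v y : (g • v).ord (g • y) = v.ord y` and `g • v = v`: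
 `0 < v.ord (toFN z - σ c)`; if `σ c ≠ c` then `c - σ c` is a nonzero constant of positive order (`S24.min_le_ord_add`, `S24.ord_algebraMap`): contradiction.
 Galois theory: `L := ι.fieldRange` as an `IntermediateField ℚ ℚ̄`; `InfiniteGalois.fixedField_fixingSubgroup L` gives `c ∈ L` (used the same way in `S14/TR/FSetup.lean`, `S23/FixedField.lean`).
 `c = ι c'`, and `toFN z - c = toFN (z - algebraMap c')` (`toFN_algebraMap`).
-/

noncomputable section

namespace Fermat.Agent.S34

open AlgebraicCurve ModularCurve
open Fermat.Agent.S24 (Kb FN iotaK)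
open Fermat.Agent.S18 (toFN)
open Fermat.Agent.GES (GQ galF)

theorem ratAt_of_fixed {K : Type} [Field K] (ι : K →+* Kb) (N : ℕ) [NeZero N]
    (v : Place Kb (FN N))
    (hfix : ∀ σ : GQ, (∀ a : K, σ (ι a) = ι a) →
      arithmeticGalois (modularFunctionFieldFull N) σ • v = v)
    (hu : ∃ u : modularFunctionFieldFullC K N, v.ord (toFN ι N u) = 1) : RatAt K (wP ι N) v := by
  refine ⟨?_, ?_⟩
  · intro z hz hz0
    rw [wP_apply] at hz0
    obtain ⟨c, hc⟩ := Fermat.Agent.S24.exists_const_sub (Fermat.Agent.S24.isFF1_FN N) v hz0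
    -- `c` is fixed by the automorphisms fixing `ι K`
    have hfixc : ∀ σ : GQ, (∀ a : K, σ (ι a) = ι a) → σ c = c := by
      intro σ hσ
      have hgz : galF N σ (toFN ι N z) = toFN ι N z := galF_toFN ι N σ hσ z
      rcases hc with hc | hc
      · have h1 : algebraMap Kb (FN N) (σ c) = algebraMap Kb (FN N) c := by
          rw [← Fermat.Agent.GES.galF_algebraMap, ← hc, hgz]
        exact (algebraMap Kb (FN N)).injective h1
      · by_contra hne
        have h1 : (arithmeticGalois (modularFunctionFieldFull N) σ • v).ord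
            (arithmeticGalois (modularFunctionFieldFull N) σ •
              (toFN ι N z - algebraMap Kb (FN N) c)) =
            v.ord (toFN ι N z - algebraMap Kb (FN N) c) :=
          SemilinearAut.ord_smul _ v _
        rw [hfix σ hσ] at h1
        have h2 : arithmeticGalois (modularFunctionFieldFull N) σ •
              (toFN ι N z - algebraMap Kb (FN N) c) =
            toFN ι N z - algebraMap Kb (FN N) (σ c) := by
          show galF N σ (toFN ι N z - algebraMap Kb (FN N) c) = _
          rw [map_sub, hgz, Fermat.Agent.GES.galF_algebraMap]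
        rw [h2] at h1
        have h3 : (toFN ι N z - algebraMap Kb (FN N) c) +
            -(toFN ι N z - algebraMap Kb (FN N) (σ c)) = algebraMap Kb (FN N) (σ c - c) := by
          rw [map_sub]; ring
        have h4 : algebraMap Kb (FN N) (σ c - c) ≠ 0 := by
          rw [Ne, map_eq_zero, sub_eq_zero]
          exact hne
        have h5 := Fermat.Agent.S24.min_le_ord_add v (f := toFN ι N z - algebraMap Kb (FN N) c)
          (g := -(toFN ι N z - algebraMap Kb (FN N) (σ c))) (by rw [h3]; exact h4)
        rw [h3, Fermat.Agent.S24.ord_algebraMap, Fermat.Agent.S24.ord_neg, h1] at h5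
        rw [min_self] at h5
        omega
    -- Galois theory
    have hmemc : ∃ c' : K, ι c' = c := by
      have _ : CharZero K := ι.charZero
      have h1 : Algebra.IsAlgebraic ℚ Kb := AlgebraicClosure.isAlgebraic ℚ
      have h2 : IsAlgClosure ℚ Kb := ⟨inferInstance, h1⟩
      have h3 : IsGalois ℚ Kb := {}
      let ι' : K →ₐ[ℚ] Kb := ι.toRatAlgHom
      have hmem : c ∈ IntermediateField.fixedField (ι'.fieldRange).fixingSubgroup := by
        rw [IntermediateField.mem_fixedField_iff]
        intro σ hσ
        refine hfixc σ fun a => ?_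
        have := (IntermediateField.mem_fixingSubgroup_iff _ σ).1 hσ (ι' a) ⟨a, rfl⟩
        exact this
      rw [InfiniteGalois.fixedField_fixingSubgroup] at hmem
      obtain ⟨c', hc'⟩ := hmem
      exact ⟨c', hc'⟩
    obtain ⟨c', rfl⟩ := hmemc
    refine ⟨c', ?_⟩
    rcases hc with hc | hc
    · left
      apply toFN_injective ι N
      rw [hc, toFN_algebraMap]
    · right
      rw [wP_apply, map_sub, toFN_algebraMap]
      exact hc
  · obtain ⟨u, hu⟩ := hu
    refine ⟨u, ?_, hu⟩
    rintro rfl
    rw [map_zero, Place.ord_zero] at hu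
    omega

end Fermat.Agent.S34
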