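import Fermat.Agent.S34.BR.Defs

set_option autoImplicit false

/-!
# S34 / BR / Sep : separating a place from finitely many others; descending finitely many functions   (task BR-Sep)

SKETCH of `exists_sep_place`.  `S24.exists_ord_pos_of_not_mem` does it as soon as there is a transcendental `y` with `0 ≤ ord y` at `v` and on `W`.
 Take any transcendental `g` (from `IsFF1`).  For `u ∈ insert v W` with `0 ≤ u.ord g` let `c_u` be the constant of `S24.exists_const_sub`.  `K` is infinite: choose `c` different from all `c_u`.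
 `y := (g - c)⁻¹`: if `0 ≤ u.ord g` then `u.ord (g - c) = 0` (`g - c = (g - c_u) + (c_u - c)`, `S24.ord_add_eq_of_lt`); if `u.ord g < 0` then `u.ord (g - c) = u.ord g < 0`.

SKETCH of `exists_descent_finset`.  `S18.KPack.exists_mem_G` gives for each `g ∈ s` a finite-dimensional `K₀ g`; `K₂ := K₁ ⊔ ⨆_{g ∈ s} K₀ g` is finite-dimensional
 (`IntermediateField.finiteDimensional_iSup_of_finset` or induction on `s` with `IntermediateField.finiteDimensional_sup`); `S18.KPack.exists_numberField K₂`;
 `S18.KPack.G_mono`, `S18.KPack.exists_descent`; `toFN ι N g₀ = g` by `Subtype.ext`.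
-/

noncomputable section

namespace Fermat.Agent.S34

open AlgebraicCurve ModularCurve
open Fermat.Agent.S24 (Kb FN iotaK IsFF1)
open Fermat.Agent.S18 (toFN)

theorem exists_sep_place {K F : Type} [Field K] [Field F] [Algebra K F] [IsAlgClosed K] [CharZero K]
    (h : IsFF1 K F) (W : Finset (Place K F)) (v : Place K F) (hv : v ∉ W) :
    ∃ z : F, z ≠ 0 ∧ 0 < v.ord z ∧ ∀ u ∈ W, u.ord z = 0 := by
  classical
  obtain ⟨g, hg, -⟩ := id h
  have hgr := Fermat.Agent.S24.not_mem_range_of_transcendental hg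
  let cst : Place K F → K := fun u =>
    if hu : 0 ≤ u.ord g then (Fermat.Agent.S24.exists_const_sub h u hu).choose else 0
  obtain ⟨c, hc⟩ : ∃ c : K, c ∉ (insert v W).image cst := Infinite.exists_notMem_finset _
  have hy : Transcendental K (g - algebraMap K F c)⁻¹ := by
    apply Fermat.Agent.S24.transcendental_of_not_mem_range
    rintro ⟨a, ha⟩
    apply hgr
    refine ⟨a⁻¹ + c, ?_⟩
    rw [map_add, map_inv₀, ha, inv_inv]
    ring
  have key : ∀ u ∈ insert v W, 0 ≤ u.ord (g - algebraMap K F c)⁻¹ := by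
    intro u hu
    rw [Place.ord_inv]
    by_cases hu0 : 0 ≤ u.ord g
    · have hcu : cst u = (Fermat.Agent.S24.exists_const_sub h u hu0).choose := dif_pos hu0
      have hspec := (Fermat.Agent.S24.exists_const_sub h u hu0).choose_spec
      rw [← hcu] at hspec
      have hpos : 0 < u.ord (g - algebraMap K F (cst u)) := by
        rcases hspec with hspec | hspec
        · exact absurd ⟨_, hspec.symm⟩ hgr
        · exact hspec
      have hne : cst u - c ≠ 0 := by
        intro h0
        apply hc
        rw [Finset.mem_image]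
        exact ⟨u, hu, sub_eq_zero.1 h0⟩
      have h1 : g - algebraMap K F c =
          algebraMap K F (cst u - c) + (g - algebraMap K F (cst u)) := by
        rw [map_sub]; ring
      rw [h1, Fermat.Agent.S24.ord_add_eq_of_lt u ((map_ne_zero (algebraMap K F)).2 hne)
        (by rw [Fermat.Agent.S24.ord_algebraMap]; exact hpos), Fermat.Agent.S24.ord_algebraMap]
      simp
    · have hg0 : g ≠ 0 := by
        rintro rfl
        exact hgr ⟨0, map_zero _⟩
      rw [sub_eq_add_neg, Fermat.Agent.S24.ord_add_eq_of_lt u hg0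
        (by rw [Fermat.Agent.S24.ord_neg, Fermat.Agent.S24.ord_algebraMap]; omega)]
      omega
  exact Fermat.Agent.S24.exists_ord_pos_of_not_mem h hy v (key v (Finset.mem_insert_self v W)) W
    (fun w hw => key w (Finset.mem_insert_of_mem hw)) hv

theorem exists_descent_finset (N : ℕ) [NeZero N] (K₁ : IntermediateField ℚ Kb)
    (h₁ : FiniteDimensional ℚ K₁) (s : Finset (FN N)) :
    ∃ (K : Type) (_ : Field K) (_ : NumberField K) (_ : IsGalois ℚ K) (ι : K →+* Kb),
      (∀ c ∈ K₁, ∃ c' : K, ι c' = c) ∧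
        ∀ g ∈ s, ∃ g₀ : modularFunctionFieldFullC K N, toFN ι N g₀ = g := by
  classical
  have key : ∃ K₂ : IntermediateField ℚ Kb, FiniteDimensional ℚ K₂ ∧ K₁ ≤ K₂ ∧
      ∀ g ∈ s, g.1 ∈ Fermat.Agent.S18.KPack.G N K₂ := by
    induction s using Finset.induction_on with
    | empty => exact ⟨K₁, h₁, le_rfl, by simp⟩
    | insert a s ha ih =>
      obtain ⟨K₂, h2, hle, hs⟩ := ih
      obtain ⟨K₀, h0, ha0⟩ := Fermat.Agent.S18.KPack.exists_mem_G N a.1 a.2
      refine ⟨K₂ ⊔ K₀, IntermediateField.finiteDimensional_sup K₂ K₀, hle.trans le_sup_left, ?_⟩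
      intro g hg
      rcases Finset.mem_insert.1 hg with rfl | hg
      · exact Fermat.Agent.S18.KPack.G_mono N le_sup_right ha0
      · exact Fermat.Agent.S18.KPack.G_mono N le_sup_left (hs g hg)
  obtain ⟨K₂, h2, hle, hs⟩ := key
  obtain ⟨K, i1, i2, i3, ι, hι⟩ := Fermat.Agent.S18.KPack.exists_numberField K₂ h2
  refine ⟨K, i1, i2, i3, ι, fun c hc => hι c (hle hc), fun g hg => ?_⟩
  obtain ⟨g₀, hg₀⟩ := Fermat.Agent.S18.KPack.exists_descent N ι K₂ hι g.1 (hs g hg)
  exact ⟨g₀, Subtype.ext (by rw [Fermat.Agent.S18.toFN_coe]; exact hg₀)⟩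

end Fermat.Agent.S34
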