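import Fermat.Agent.S34.BR.Fam
import Fermat.Agent.S34.BR.Rat
import Fermat.Agent.S34.BR.Sep

set_option autoImplicit false

/-!
# S34 / BR / Pack : choice of the number field `K`   (task BR-Pack)

SKETCH.  `W := {v | v.ord f ≠ 0}` is finite (as in `valFam_wP`; `NV.Canon.finite_ord_neg` for `f`, `f⁻¹`).  For `v ∈ W` choose `u_v` with `v.ord u_v = 1` (`S24.exists_ord_eq_one`)
 and `z_v` with `0 < v.ord z_v`, `u.ord z_v = 0` for `u ∈ W \ {v}` (`exists_sep_place`).  `exists_descent_finset` for `s = {f} ∪ {u_v} ∪ {z_v}`.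
 Let `σ : GQ` fix `ι K`, `g = arithmeticGalois _ σ`, `v ∈ W`.  `g • f = f`, `g • z_v = z_v` (`galF_toFN`).  `SemilinearAut.ord_smul`: `(g • v).ord f = v.ord f ≠ 0`, so `g • v ∈ W`;
 `(g • v).ord z_v = v.ord z_v > 0`, so `g • v = v`.  `ratAt_of_fixed`.
-/

noncomputable section

namespace Fermat.Agent.S34

open AlgebraicCurve ModularCurve
open Fermat.Agent.S24 (Kb FN iotaK)
open Fermat.Agent.S18 (toFN)

theorem exists_pack (N : ℕ) [NeZero N] (K₁ : IntermediateField ℚ Kb) (h₁ : FiniteDimensional ℚ K₁)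
    (f : FN N) (hf : f ≠ 0) :
    ∃ (K : Type) (_ : Field K) (_ : NumberField K) (_ : IsGalois ℚ K) (ι : K →+* Kb),
      (∀ c ∈ K₁, ∃ c' : K, ι c' = c) ∧
        ∃ f₀ : modularFunctionFieldFullC K N, toFN ι N f₀ = f ∧
          ∀ v : Place Kb (FN N), v.ord f ≠ 0 → RatAt K (wP ι N) v := by
  classical
  have hFF := Fermat.Agent.S24.isFF1_FN N
  have hfin : {v : Place Kb (FN N) | v.ord f ≠ 0}.Finite := by
    refine ((Fermat.Agent.NV.Canon.finite_ord_neg hFF f).union
      (Fermat.Agent.NV.Canon.finite_ord_neg hFF f⁻¹)).subset ?_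
    intro v hv
    rw [Set.mem_ofPred_eq] at hv
    rw [Set.mem_union, Set.mem_ofPred_eq, Set.mem_ofPred_eq, Place.ord_inv]
    omega
  set W : Finset (Place Kb (FN N)) := hfin.toFinset with hW
  have hmemW : ∀ v : Place Kb (FN N), v ∈ W ↔ v.ord f ≠ 0 := fun v => by
    rw [hW, Set.Finite.mem_toFinset, Set.mem_ofPred_eq]
  choose uu huu _ _ using fun v : Place Kb (FN N) => Fermat.Agent.S24.exists_ord_eq_one v
  choose zz _ hzz1 hzz2 using fun v : Place Kb (FN N) =>
    exists_sep_place hFF (W.erase v) v (Finset.notMem_erase v W)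
  obtain ⟨K, i1, i2, i3, ι, hι, hs⟩ :=
    exists_descent_finset N K₁ h₁ (insert f (W.image uu ∪ W.image zz))
  refine ⟨K, i1, i2, i3, ι, hι, ?_⟩
  obtain ⟨f₀, hf₀⟩ := hs f (Finset.mem_insert_self _ _)
  refine ⟨f₀, hf₀, fun v hv => ?_⟩
  have hvW : v ∈ W := (hmemW v).2 hv
  obtain ⟨u₀, hu₀⟩ := hs (uu v) (Finset.mem_insert_of_mem
    (Finset.mem_union_left _ (Finset.mem_image_of_mem uu hvW)))
  obtain ⟨z₀, hz₀⟩ := hs (zz v) (Finset.mem_insert_of_mem
    (Finset.mem_union_right _ (Finset.mem_image_of_mem zz hvW)))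
  refine ratAt_of_fixed ι N v ?_ ⟨u₀, by rw [hu₀]; exact huu v⟩
  intro σ hσ
  have hsm : ∀ y₀ : modularFunctionFieldFullC K N,
      (arithmeticGalois (modularFunctionFieldFull N) σ • v).ord (toFN ι N y₀) =
        v.ord (toFN ι N y₀) := by
    intro y₀
    have h1 := SemilinearAut.ord_smul (arithmeticGalois (modularFunctionFieldFull N) σ) v
      (toFN ι N y₀)
    have h2 : arithmeticGalois (modularFunctionFieldFull N) σ • (toFN ι N y₀) = toFN ι N y₀ :=
      galF_toFN ι N σ hσ y₀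
    rwa [h2] at h1
  by_contra hne
  have h1 : arithmeticGalois (modularFunctionFieldFull N) σ • v ∈ W.erase v := by
    rw [Finset.mem_erase]
    refine ⟨hne, (hmemW _).2 ?_⟩
    rw [← hf₀, hsm, hf₀]
    exact hv
  have h2 := hzz2 v _ h1
  rw [← hz₀, hsm, hz₀] at h2
  have h3 := hzz1 v
  omega

end Fermat.Agent.S34
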