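import Fermat.Agent.S34.BR.Defs
import Fermat.Agent.NV.Canon

set_option autoImplicit false

/-!
# S34 / BR / Fam : the restricted places form a `ValFam`   (task BR-Fam)

SKETCH.  `map_mul`, `map_add`: `Place.ord_mul`, `S24.min_le_ord_add`, `toFN` is an injective ring hom.  `map_const`: `toFN_algebraMap`, `S24.ord_algebraMap`.
`fin`: for `g = toFN z ≠ 0`: `{v | v.ord g ≠ 0} ⊆ {v | v.ord g < 0} ∪ {v | v.ord g⁻¹ < 0}`, both finite by `NV.Canon.finite_ord_neg (S24.isFF1_FN N)`.
-/

noncomputable section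

namespace Fermat.Agent.S34

open AlgebraicCurve ModularCurve
open Fermat.Agent.S24 (Kb FN iotaK)
open Fermat.Agent.S18 (toFN)

theorem valFam_wP {K : Type} [Field K] (ι : K →+* Kb) (N : ℕ) [NeZero N] : ValFam K (wP ι N) := by
  have hne : ∀ z : modularFunctionFieldFullC K N, z ≠ 0 → toFN ι N z ≠ 0 := fun z hz =>
    (map_ne_zero_iff _ (toFN_injective ι N)).2 hz
  refine ⟨?_, ?_, ?_, ?_⟩
  · intro v a b ha hb
    rw [wP_apply, wP_apply, wP_apply, map_mul, Place.ord_mul v (hne a ha) (hne b hb)]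
  · intro v a b _ _ hab
    rw [wP_apply, wP_apply, wP_apply, map_add]
    refine Fermat.Agent.S24.min_le_ord_add v ?_
    rw [← map_add]
    exact hne _ hab
  · intro v c _
    rw [wP_apply, toFN_algebraMap, Fermat.Agent.S24.ord_algebraMap]
  · intro z hz
    have h1 := Fermat.Agent.NV.Canon.finite_ord_neg (Fermat.Agent.S24.isFF1_FN N) (toFN ι N z)
    have h2 := Fermat.Agent.NV.Canon.finite_ord_neg (Fermat.Agent.S24.isFF1_FN N) (toFN ι N z)⁻¹
    refine (h1.union h2).subset ?_
    intro v hv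
    rw [Set.mem_ofPred_eq, wP_apply] at hv
    rw [Set.mem_union, Set.mem_ofPred_eq, Set.mem_ofPred_eq, Place.ord_inv]
    omega

end Fermat.Agent.S34
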