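import Fermat.Agent.S34.Val
import Fermat.Agent.S18.KPack
import Fermat.Agent.GES.Defs
import Fermat.Agent.S24.Avoid
import Fermat.Agent.S24.Residue
import Fermat.Agent.S24.Degree

set_option autoImplicit false

/-!
# S34 / BR / Defs : the places of `FN N` restricted to `F_K`

`K` a field with `ι : K →+* ℚ̄`, `F_K = modularFunctionFieldFullC K N`, `toFN ι N : F_K →+* FN N` (coefficientwise).
`wP ι N v z = v.ord (toFN ι N z)`.
-/

noncomputable section

namespace Fermat.Agent.S34

open AlgebraicCurve ModularCurve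
open Fermat.Agent.S24 (Kb FN iotaK)
open Fermat.Agent.S18 (toFN)
open Fermat.Agent.GES (GQ galF)

/-- the places of `FN N`, restricted to `F_K`. -/
def wP {K : Type} [Field K] (ι : K →+* Kb) (N : ℕ) [NeZero N] :
    Place Kb (FN N) → modularFunctionFieldFullC K N → ℤ :=
  fun v z => v.ord (toFN ι N z)

theorem wP_apply {K : Type} [Field K] (ι : K →+* Kb) (N : ℕ) [NeZero N] (v : Place Kb (FN N))
    (z : modularFunctionFieldFullC K N) : wP ι N v z = v.ord (toFN ι N z) := rfl

theorem toFN_algebraMap {K : Type} [Field K] (ι : K →+* Kb) (N : ℕ) [NeZero N] (c : K) :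
    toFN ι N (algebraMap K (modularFunctionFieldFullC K N) c) = algebraMap Kb (FN N) (ι c) := by
  apply Subtype.ext
  rw [Fermat.Agent.S18.toFN_coe]
  show coeffMap ι (algebraMap K (LaurentSeries K) c) = algebraMap Kb (LaurentSeries Kb) (ι c)
  rw [algebraMap_laurentSeries_eq_single, coeffMap_single, ← algebraMap_laurentSeries_eq_single]

theorem toFN_injective {K : Type} [Field K] (ι : K →+* Kb) (N : ℕ) [NeZero N] :
    Function.Injective (toFN ι N) := (toFN ι N).injective

/-- an element of `G_ℚ` fixing `ι K` pointwise fixes `toFN ι N z`. -/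
theorem galF_toFN {K : Type} [Field K] (ι : K →+* Kb) (N : ℕ) [NeZero N] (σ : GQ)
    (hσ : ∀ a : K, σ (ι a) = ι a) (z : modularFunctionFieldFullC K N) :
    galF N σ (toFN ι N z) = toFN ι N z := by
  apply Subtype.ext
  rw [Fermat.Agent.GES.coe_galF, Fermat.Agent.S18.toFN_coe]
  ext k
  simp [hσ]

end Fermat.Agent.S34
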