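import Fermat.Agent.S34.BR.Defs
import Fermat.Agent.S24.Dedekind
import Fermat.Agent.S24.SumOrd

set_option autoImplicit false

/-!
# S34 / BR / IntA : places detect integrality over `K[T]` (abstract, `K` algebraically closed)   (task BR-IntA)

SKETCH.  `A = Algebra.adjoin K {T}` is a PID (`S24.SumOrd.isPrincipalIdealRing_adjoin`), `B = integralClosure A F` is a Dedekind domain with fraction field `F`
 (set-up exactly as in the proof of `S24.SumOrd.exists_finset`: `IsIntegralClosure.isDedekindDomain A K⟮T⟯ F B`, `IsIntegralClosure.isFractionRing_of_finite_extension`;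
 `FiniteDimensional K⟮T⟯ F` is `IsFF1.finiteDimensional`).
 Mathlib `IsDedekindDomain.HeightOneSpectrum.mem_integers_of_valuation_le_one F g` : it suffices that `w.valuation F g ≤ 1` for all `w : HeightOneSpectrum B`.
 `v := Place.ofHeightOneSpectrum w` contains `B`, in particular `0 ≤ v.ord T`, so `0 ≤ v.ord g`; conclude by `S24.Ded.ord_ofHeightOneSpectrum` / `Ded.wOf_nonneg_iff`.
-/

noncomputable section

namespace Fermat.Agent.S34

open AlgebraicCurve IntermediateField
open scoped IntermediateField.algebraAdjoinAdjoin
open Fermat.Agent.S24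

theorem isIntegral_of_ord_nonneg {K F : Type} [Field K] [Field F] [Algebra K F] [IsAlgClosed K]
    [CharZero K] (h : IsFF1 K F) {T : F} (hT : Transcendental K T) {g : F}
    (hg : ∀ v : Place K F, 0 ≤ v.ord T → 0 ≤ v.ord g) : IsIntegral (Algebra.adjoin K {T}) g := by
  have := SumOrd.isPrincipalIdealRing_adjoin hT
  have := h.finiteDimensional hT
  have : IsDedekindDomain (integralClosure (Algebra.adjoin K {T}) F) :=
    integralClosure.isDedekindDomain (Algebra.adjoin K {T}) K⟮T⟯ F
  have : IsFractionRing (integralClosure (Algebra.adjoin K {T}) F) F :=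
    integralClosure.isFractionRing_of_finite_extension K⟮T⟯ F
  have : IsScalarTower K (integralClosure (Algebra.adjoin K {T}) F) F :=
    IsScalarTower.of_algebraMap_eq (fun _ => rfl)
  have key : g ∈ (algebraMap (integralClosure (Algebra.adjoin K {T}) F) F).range := by
    refine IsDedekindDomain.HeightOneSpectrum.mem_integers_of_valuation_le_one F g ?_
    intro w
    have hT0 : 0 ≤ (Place.ofHeightOneSpectrum (K := K) (F := F) w).ord T := by
      apply ord_nonneg_of_mem
      rw [Place.ofHeightOneSpectrum_toValuationSubring, Valuation.mem_valuationSubring_iff]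
      have hTint : IsIntegral (Algebra.adjoin K {T}) T :=
        (isIntegral_algebraMap (R := Algebra.adjoin K {T}) (A := F)
          (x := ⟨T, Algebra.self_mem_adjoin_singleton K T⟩))
      exact w.valuation_le_one (⟨T, hTint⟩ : integralClosure (Algebra.adjoin K {T}) F)
    have h1 := mem_of_ord_nonneg _ (hg _ hT0)
    rwa [Place.ofHeightOneSpectrum_toValuationSubring, Valuation.mem_valuationSubring_iff] at h1
  obtain ⟨b, rfl⟩ := key
  exact b.2

end Fermat.Agent.S34
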